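import Fermat.Agent.DS.N1.CoeffBound

/-!
# S48 (Deligne–Serre), node (N1): the gate `GateRankin2`

`gateRankin2` is the `hRankin` argument of `DS/N6/Final.s48_of_gates` (and of `s48_of_gates_fg`)
VERBATIM, from the hypotheses of the frozen S48 (`a_1 = 1` and the Hecke recursion at `p ∤ N`):

if `‖a_p‖ ≤ 2` for all primes `p ∤ N` then there is `C` with
`∑_{p ∈ T} ‖a_p‖² p^{-s} ≤ log (1/(s-1)) + C` for all `1 < s < 2` and all finite sets `T` of
primes not dividing `N`.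
-/

namespace Fermat.Agent.DS.N1

open Finset CongruenceSubgroup

/-- `log (C (1/(s-1) + 1)) ≤ log (1/(s-1)) + log (2 C)` for `1 < s < 2`, `1 ≤ C`. -/
theorem log_mul_inv_add_one_le {C s : ℝ} (hC : 1 ≤ C) (hs1 : 1 < s) (hs2 : s < 2) :
    Real.log (C * (1 / (s - 1) + 1)) ≤ Real.log (1 / (s - 1)) + Real.log (2 * C) := by
  have hpos : 0 < s - 1 := by linarith
  have hinv : 1 ≤ 1 / (s - 1) := by
    rw [le_div_iff₀ hpos]
    linarith
  have hinvpos : 0 < 1 / (s - 1) := lt_of_lt_of_le one_pos hinv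
  have hCpos : 0 < C := lt_of_lt_of_le one_pos hC
  rw [← Real.log_mul hinvpos.ne' (by positivity)]
  refine Real.log_le_log (by positivity) ?_
  nlinarith

/-- **GateRankin2**: the `hRankin` binder of `DS/N6/Final.s48_of_gates`, from the S48 hypotheses. -/
theorem gateRankin2 (N : ℕ) [NeZero N] (ε : DirichletCharacter ℂ N) (f : CuspForm (Gamma1 N) 1)
    (hf₁ : ModularFormClass.qCoeff f 1 = 1)
    (hT : ∀ p : ℕ, p.Prime → ¬ p ∣ N → ∀ n : ℕ,
      ModularFormClass.qCoeff f (p * n) +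
          ε (p : ZMod N) * (if p ∣ n then ModularFormClass.qCoeff f (n / p) else 0) =
        ModularFormClass.qCoeff f p * ModularFormClass.qCoeff f n) :
    (∀ p : ℕ, p.Prime → ¬ p ∣ N → ‖ModularFormClass.qCoeff f p‖ ≤ 2) →
      ∃ C : ℝ, ∀ s : ℝ, 1 < s → s < 2 → ∀ T : Finset ℕ,
        (∀ p ∈ T, p.Prime ∧ p ∉ N.primeFactors) →
        ∑ p ∈ T, ‖ModularFormClass.qCoeff f p‖ ^ 2 * (p : ℝ) ^ (-s) ≤
          Real.log (1 / (s - 1)) + C := by
  intro hbound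
  obtain ⟨C, hC1, hC⟩ := weightOne_sum_primes_bounded_le N ε f hf₁ hT
  refine ⟨Real.log (2 * C) + 2 * (4 : ℝ) ^ 2, fun s hs1 hs2 T hTp => ?_⟩
  have hN : N ≠ 0 := NeZero.ne N
  have hnd : ∀ p ∈ T, ¬ p ∣ N := fun p hp hd =>
    (hTp p hp).2 (Nat.mem_primeFactors.mpr ⟨(hTp p hp).1, hd, hN⟩)
  have h := hC s hs1 4 T fun p hp => by
    refine ⟨(hTp p hp).1, hnd p hp, ?_⟩
    have h2 := hbound p (hTp p hp).1 (hnd p hp)
    have h0 : 0 ≤ ‖ModularFormClass.qCoeff f p‖ := norm_nonneg _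
    nlinarith
  have hsum : ∑ p ∈ T, ‖ModularFormClass.qCoeff f p‖ ^ 2 * (p : ℝ) ^ (-s) =
      ∑ p ∈ T, ‖ModularFormClass.qCoeff f p‖ ^ 2 / (p : ℝ) ^ s :=
    sum_congr rfl fun p _ => by
      rw [Real.rpow_neg (Nat.cast_nonneg p), div_eq_mul_inv]
  rw [hsum]
  have hlog := log_mul_inv_add_one_le hC1 hs1 hs2
  linarith

end Fermat.Agent.DS.N1
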