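import Mathlib

/-!
# S48 (Deligne–Serre), node (N1), formal half: from a mean bound to Euler-product bounds

Let `b : ℕ → ℝ` be nonnegative, (coprime-)multiplicative, with `∑_{n ≤ X} b n ≤ C · X`.  Then for
real `s > 1` and every finite set `T` of primes

* `sum_log_one_add_le` : `∑_{p ∈ T} log (1 + b_p p^{-s}) ≤ log (C (1/(s-1) + 1))`;
* `sum_primes_large_le` : if `b_p ≥ M` and `p ≥ M` on `T`, `(M/2) ∑_{p ∈ T} p^{-s} ≤ log (…)`
  (so `{p : b_p ≥ M}` has upper Dirichlet density `≤ 2/M`);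
* `sum_primes_bounded_le` : if `b_p ≤ K` on `T`, `∑_{p ∈ T} b_p p^{-s} ≤ log (…) + 2K²`
  (the sharp "Rankin" bound once `|a_p| ≤ 2` is known).

Ingredients: `sum_mul_le_sum_mul_of_partial_sums_le` (Abel summation as a majorization principle),
`sum_div_rpow_le` (`D(s) ≤ C ζ(s) ≤ C (1/(s-1)+1)`), `prod_one_add_le_sum` (finite Euler product).
Mathlib only; no complex analysis.
-/

namespace Fermat.Agent.DS.N1

open Finset

/-- **Majorization** (Abel summation without integrals): if the partial sums of `b` are dominated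
by those of `c` and `w` is nonnegative and antitone, then the `w`-weighted partial sums of `b` are
dominated by those of `c`. -/
theorem sum_mul_le_sum_mul_of_partial_sums_le {b c w : ℕ → ℝ}
    (hw : Antitone w) (hw0 : ∀ n, 0 ≤ w n)
    (h : ∀ X, ∑ n ∈ range X, b n ≤ ∑ n ∈ range X, c n) (X : ℕ) :
    ∑ n ∈ range X, b n * w n ≤ ∑ n ∈ range X, c n * w n := by
  have key : ∀ X, (∑ n ∈ range X, (c n - b n)) * w X ≤ ∑ n ∈ range X, (c n - b n) * w n := by
    intro X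
    induction X with
    | zero => simp
    | succ X ih =>
      rw [sum_range_succ, sum_range_succ]
      have hD : 0 ≤ ∑ n ∈ range X, (c n - b n) + (c X - b X) := by
        have := h (X + 1)
        rw [sum_range_succ, sum_range_succ] at this
        rw [sum_sub_distrib]; linarith
      calc (∑ n ∈ range X, (c n - b n) + (c X - b X)) * w (X + 1)
          ≤ (∑ n ∈ range X, (c n - b n) + (c X - b X)) * w X :=
            mul_le_mul_of_nonneg_left (hw (Nat.le_succ X)) hD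
        _ = (∑ n ∈ range X, (c n - b n)) * w X + (c X - b X) * w X := by ring
        _ ≤ _ := by linarith
  have h1 := key X
  have hD : 0 ≤ ∑ n ∈ range X, (c n - b n) := by rw [sum_sub_distrib]; linarith [h X]
  have h2 : 0 ≤ ∑ n ∈ range X, (c n - b n) * w n := le_trans (mul_nonneg hD (hw0 X)) h1
  have h3 : ∑ n ∈ range X, (c n - b n) * w n =
      ∑ n ∈ range X, c n * w n - ∑ n ∈ range X, b n * w n := by
    rw [← sum_sub_distrib]; exact sum_congr rfl fun n _ => by ring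
  linarith

/-- `∑_{n ≥ 1} n^{-s} ≤ 1/(s-1) + 1` for real `s > 1`. -/
theorem tsum_one_div_rpow_le {s : ℝ} (hs : 1 < s) :
    ∑' n : ℕ, 1 / (n + 1 : ℝ) ^ s ≤ 1 / (s - 1) + 1 := by
  have h := ZetaAsymptotics.zeta_limit_aux1 hs
  have h0 : 0 ≤ ZetaAsymptotics.termTSum s :=
    tsum_nonneg fun n => ZetaAsymptotics.term_nonneg _ _
  nlinarith

theorem summable_one_div_succ_rpow {s : ℝ} (hs : 1 < s) :
    Summable fun n : ℕ => 1 / (n + 1 : ℝ) ^ s := by
  exact_mod_cast (summable_nat_add_iff 1).mpr (Real.summable_one_div_nat_rpow.mpr hs)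

/-- **Dirichlet series bound from mean bound** (`D(s) ≤ C · ζ(s) ≤ C (1/(s-1) + 1)`). -/
theorem sum_div_rpow_le {b : ℕ → ℝ} {C : ℝ} (hC : 0 ≤ C)
    (hB : ∀ X : ℕ, ∑ n ∈ range X, b (n + 1) ≤ C * X) {s : ℝ} (hs : 1 < s) (X : ℕ) :
    ∑ n ∈ range X, b (n + 1) / (n + 1 : ℝ) ^ s ≤ C * (1 / (s - 1) + 1) := by
  have hw : Antitone fun n : ℕ => 1 / (n + 1 : ℝ) ^ s := by
    intro m n hmn
    have hm : (0 : ℝ) < (m : ℝ) + 1 := by positivity
    have : ((m : ℝ) + 1) ^ s ≤ ((n : ℝ) + 1) ^ s :=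
      Real.rpow_le_rpow hm.le (by exact_mod_cast Nat.succ_le_succ hmn) (by linarith)
    exact one_div_le_one_div_of_le (Real.rpow_pos_of_pos hm s) this
  have hw0 : ∀ n : ℕ, 0 ≤ 1 / (n + 1 : ℝ) ^ s := fun n => by positivity
  have h1 := sum_mul_le_sum_mul_of_partial_sums_le (b := fun n => b (n + 1)) (c := fun _ => C)
    hw hw0 (fun X => by simpa [mul_comm] using hB X) X
  have h2 : ∑ n ∈ range X, 1 / (n + 1 : ℝ) ^ s ≤ 1 / (s - 1) + 1 :=
    le_trans ((summable_one_div_succ_rpow hs).sum_le_tsum _ fun n _ => hw0 n)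
      (tsum_one_div_rpow_le hs)
  calc ∑ n ∈ range X, b (n + 1) / (n + 1 : ℝ) ^ s
      = ∑ n ∈ range X, b (n + 1) * (1 / (n + 1 : ℝ) ^ s) :=
        sum_congr rfl fun n _ => by rw [mul_one_div]
    _ ≤ ∑ n ∈ range X, C * (1 / (n + 1 : ℝ) ^ s) := h1
    _ = C * ∑ n ∈ range X, 1 / (n + 1 : ℝ) ^ s := by rw [mul_sum]
    _ ≤ C * (1 / (s - 1) + 1) := mul_le_mul_of_nonneg_left h2 hC

/-- A (coprime-)multiplicative function takes a product of distinct primes to the product of its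
values. -/
theorem map_prod_primes_of_mult {g : ℕ → ℝ} (hg1 : g 1 = 1)
    (hgm : ∀ m n : ℕ, m.Coprime n → g (m * n) = g m * g n)
    (U : Finset ℕ) (hU : ∀ p ∈ U, p.Prime) :
    g (∏ p ∈ U, p) = ∏ p ∈ U, g p := by
  induction U using Finset.induction_on with
  | empty => simpa using hg1
  | insert p U hpU ih =>
    rw [prod_insert hpU, prod_insert hpU, hgm, ih fun q hq => hU q (mem_insert_of_mem hq)]
    refine Nat.Coprime.prod_right fun q hq => ?_
    rw [Nat.coprime_primes (hU p (mem_insert_self p U)) (hU q (mem_insert_of_mem hq))]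
    rintro rfl
    exact hpU hq

/-- **Finite Euler product bound**: for `g ≥ 0` multiplicative and `T` a finite set of primes,
`∏_{p ∈ T} (1 + g p) ≤ ∑_{1 ≤ n ≤ ∏ T} g n`. -/
theorem prod_one_add_le_sum {g : ℕ → ℝ} (hg0 : ∀ n, 0 ≤ g n) (hg1 : g 1 = 1)
    (hgm : ∀ m n : ℕ, m.Coprime n → g (m * n) = g m * g n)
    (T : Finset ℕ) (hT : ∀ p ∈ T, p.Prime) :
    ∏ p ∈ T, (1 + g p) ≤ ∑ n ∈ range (∏ p ∈ T, p), g (n + 1) := by
  rw [prod_one_add]
  have h1 : ∀ U ∈ T.powerset, ∏ p ∈ U, g p = g (∏ p ∈ U, p) := fun U hU =>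
    (map_prod_primes_of_mult hg1 hgm U fun p hp => hT p (mem_powerset.mp hU hp)).symm
  rw [sum_congr rfl h1]
  have hinj : Set.InjOn (fun U : Finset ℕ => ∏ p ∈ U, p) (T.powerset : Set (Finset ℕ)) := by
    intro U hU V hV hUV
    have hU' : ∀ p ∈ U, p.Prime := fun p hp => hT p (mem_powerset.mp hU hp)
    have hV' : ∀ p ∈ V, p.Prime := fun p hp => hT p (mem_powerset.mp hV hp)
    rw [← Nat.primeFactors_prod hU', ← Nat.primeFactors_prod hV']
    exact congrArg Nat.primeFactors hUV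
  rw [← sum_image (f := fun n => g n) hinj]
  have hsub : T.powerset.image (fun U : Finset ℕ => ∏ p ∈ U, p) ⊆
      (range (∏ p ∈ T, p)).image (· + 1) := by
    intro n hn
    obtain ⟨U, hU, rfl⟩ := mem_image.mp hn
    have hpos : 0 < ∏ p ∈ U, p :=
      prod_pos fun p hp => (hT p (mem_powerset.mp hU hp)).pos
    have hle : ∏ p ∈ U, p ≤ ∏ p ∈ T, p :=
      Nat.le_of_dvd (prod_pos fun p hp => (hT p hp).pos)
        (prod_dvd_prod_of_subset _ _ _ (mem_powerset.mp hU))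
    refine mem_image.mpr ⟨∏ p ∈ U, p - 1, mem_range.mpr (by omega), by omega⟩
  refine le_trans (sum_le_sum_of_subset_of_nonneg hsub fun n _ _ => hg0 n) (le_of_eq ?_)
  rw [sum_image fun a _ b _ h => Nat.succ_injective h]

/-- **Main bound.** For `b ≥ 0` multiplicative with `∑_{n ≤ X} b n ≤ C X`, real `s > 1` and any
finite set `T` of primes: `∑_{p ∈ T} log (1 + b_p p^{-s}) ≤ log (C (1/(s-1) + 1))`. -/
theorem sum_log_one_add_le {b : ℕ → ℝ} {C : ℝ}
    (hb0 : ∀ n, 0 ≤ b n) (hb1 : b 1 = 1)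
    (hbm : ∀ m n : ℕ, m.Coprime n → b (m * n) = b m * b n)
    (hB : ∀ X : ℕ, ∑ n ∈ range X, b (n + 1) ≤ C * X)
    {s : ℝ} (hs : 1 < s) (T : Finset ℕ) (hT : ∀ p ∈ T, p.Prime) :
    ∑ p ∈ T, Real.log (1 + b p / (p : ℝ) ^ s) ≤ Real.log (C * (1 / (s - 1) + 1)) := by
  have hC : 0 ≤ C := by
    have := hB 1
    simp only [range_one, sum_singleton, zero_add, hb1, Nat.cast_one, mul_one] at this
    linarith
  set g : ℕ → ℝ := fun n => b n / (n : ℝ) ^ s with hg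
  have hg0 : ∀ n, 0 ≤ g n := fun n => div_nonneg (hb0 n) (Real.rpow_nonneg (Nat.cast_nonneg n) s)
  have hg1 : g 1 = 1 := by simp [hg, hb1]
  have hgm : ∀ m n : ℕ, m.Coprime n → g (m * n) = g m * g n := by
    intro m n hmn
    simp only [hg]
    rw [hbm m n hmn, Nat.cast_mul, Real.mul_rpow (Nat.cast_nonneg m) (Nat.cast_nonneg n),
      mul_div_mul_comm]
  have h1 := prod_one_add_le_sum hg0 hg1 hgm T hT
  have h2 : ∑ n ∈ range (∏ p ∈ T, p), g (n + 1) ≤ C * (1 / (s - 1) + 1) := by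
    have := sum_div_rpow_le hC hB hs (∏ p ∈ T, p)
    simpa [hg] using this
  have hpos : ∀ p ∈ T, (0 : ℝ) < 1 + g p := fun p _ => by linarith [hg0 p]
  rw [← Real.log_prod fun p hp => (hpos p hp).ne']
  exact Real.log_le_log (prod_pos hpos) (le_trans h1 h2)

/-- `log (1 + x) ≥ x / (1 + x)` for `x ≥ 0`. -/
theorem div_one_add_le_log_one_add {x : ℝ} (hx : 0 ≤ x) : x / (1 + x) ≤ Real.log (1 + x) := by
  have h := Real.one_sub_inv_le_log_of_pos (x := 1 + x) (by linarith)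
  have : 1 - (1 + x)⁻¹ = x / (1 + x) := by
    field_simp
    ring
  linarith

/-- **Sparseness of large coefficients** (Dirichlet-density form): if `T` is a finite set of
primes `p ≥ M` with `b_p ≥ M`, then `(M/2) ∑_{p ∈ T} p^{-s} ≤ log (C (1/(s-1) + 1))`. -/
theorem sum_primes_large_le {b : ℕ → ℝ} {C : ℝ}
    (hb0 : ∀ n, 0 ≤ b n) (hb1 : b 1 = 1)
    (hbm : ∀ m n : ℕ, m.Coprime n → b (m * n) = b m * b n)
    (hB : ∀ X : ℕ, ∑ n ∈ range X, b (n + 1) ≤ C * X)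
    {s : ℝ} (hs : 1 < s) {M : ℝ} (hM : 0 < M) (T : Finset ℕ)
    (hT : ∀ p ∈ T, p.Prime ∧ M ≤ b p ∧ M ≤ (p : ℝ)) :
    M / 2 * ∑ p ∈ T, 1 / (p : ℝ) ^ s ≤ Real.log (C * (1 / (s - 1) + 1)) := by
  refine le_trans ?_ (sum_log_one_add_le hb0 hb1 hbm hB hs T fun p hp => (hT p hp).1)
  rw [mul_sum]
  refine sum_le_sum fun p hp => ?_
  obtain ⟨hp1, hp2, hp3⟩ := hT p hp
  have hp0 : (0 : ℝ) < p := by exact_mod_cast hp1.pos
  have hp1' : (1 : ℝ) ≤ p := by exact_mod_cast hp1.one_lt.le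
  have hps : (p : ℝ) ≤ (p : ℝ) ^ s := by
    conv_lhs => rw [← Real.rpow_one (p : ℝ)]
    exact Real.rpow_le_rpow_of_exponent_le hp1' hs.le
  have hps0 : (0 : ℝ) < (p : ℝ) ^ s := Real.rpow_pos_of_pos hp0 s
  set x : ℝ := M / (p : ℝ) ^ s with hx
  have hx0 : 0 ≤ x := by positivity
  have hx1 : x ≤ 1 := by
    rw [hx, div_le_one hps0]; linarith
  have h1 : x / 2 ≤ Real.log (1 + x) := by
    refine le_trans ?_ (div_one_add_le_log_one_add hx0)
    rw [div_le_div_iff₀ (by norm_num) (by linarith)]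
    nlinarith
  have h2 : Real.log (1 + x) ≤ Real.log (1 + b p / (p : ℝ) ^ s) := by
    refine Real.log_le_log (by linarith) ?_
    have : x ≤ b p / (p : ℝ) ^ s := div_le_div_of_nonneg_right hp2 hps0.le
    linarith
  calc M / 2 * (1 / (p : ℝ) ^ s) = x / 2 := by rw [hx]; ring
    _ ≤ _ := le_trans h1 h2

/-- `∑_{p ∈ T} p^{-2s} ≤ 2` for `s ≥ 1` and `T` a finite set of positive integers. -/
theorem sum_one_div_rpow_two_mul_le {s : ℝ} (hs : 1 ≤ s) (T : Finset ℕ) (hT : ∀ p ∈ T, 0 < p) :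
    ∑ p ∈ T, 1 / ((p : ℝ) ^ s) ^ 2 ≤ 2 := by
  have h2 : ∑' n : ℕ, 1 / (n + 1 : ℝ) ^ (2 : ℝ) ≤ 2 := by
    have := tsum_one_div_rpow_le (s := 2) (by norm_num)
    norm_num at this ⊢
    linarith
  have hsum := summable_one_div_succ_rpow (s := 2) (by norm_num)
  have hsub : T ⊆ (range (T.sup id)).image (fun n : ℕ => n + 1) := by
    intro p hp
    have hle : p ≤ T.sup id := le_sup (f := id) hp
    have := hT p hp
    exact mem_image.mpr ⟨p - 1, mem_range.mpr (by omega), by omega⟩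
  have h1 : ∀ p ∈ T, 1 / ((p : ℝ) ^ s) ^ 2 ≤ 1 / (p : ℝ) ^ (2 : ℝ) := by
    intro p hp
    have hp0 : (0 : ℝ) < p := by exact_mod_cast hT p hp
    have hp1 : (1 : ℝ) ≤ p := by exact_mod_cast hT p hp
    rw [← Real.rpow_natCast ((p : ℝ) ^ s) 2, ← Real.rpow_mul hp0.le]
    refine one_div_le_one_div_of_le (Real.rpow_pos_of_pos hp0 _) ?_
    refine Real.rpow_le_rpow_of_exponent_le hp1 ?_
    push_cast
    linarith
  calc ∑ p ∈ T, 1 / ((p : ℝ) ^ s) ^ 2 ≤ ∑ p ∈ T, 1 / (p : ℝ) ^ (2 : ℝ) := sum_le_sum h1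
    _ ≤ ∑ p ∈ (range (T.sup id)).image (fun n : ℕ => n + 1), 1 / ((p : ℕ) : ℝ) ^ (2 : ℝ) :=
        sum_le_sum_of_subset_of_nonneg hsub fun p _ _ => by positivity
    _ = ∑ n ∈ range (T.sup id), 1 / (n + 1 : ℝ) ^ (2 : ℝ) := by
        rw [sum_image fun a _ b _ h => Nat.succ_injective h]
        exact sum_congr rfl fun n _ => by push_cast; rfl
    _ ≤ ∑' n : ℕ, 1 / (n + 1 : ℝ) ^ (2 : ℝ) := hsum.sum_le_tsum _ fun n _ => by positivity
    _ ≤ 2 := h2

/-- **Sharp bound when the prime coefficients are bounded**: if `b_p ≤ K` on `T`, then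
`∑_{p ∈ T} b_p p^{-s} ≤ log (C (1/(s-1) + 1)) + 2 K²`. -/
theorem sum_primes_bounded_le {b : ℕ → ℝ} {C : ℝ}
    (hb0 : ∀ n, 0 ≤ b n) (hb1 : b 1 = 1)
    (hbm : ∀ m n : ℕ, m.Coprime n → b (m * n) = b m * b n)
    (hB : ∀ X : ℕ, ∑ n ∈ range X, b (n + 1) ≤ C * X)
    {s : ℝ} (hs : 1 < s) {K : ℝ} (T : Finset ℕ)
    (hT : ∀ p ∈ T, p.Prime ∧ b p ≤ K) :
    ∑ p ∈ T, b p / (p : ℝ) ^ s ≤ Real.log (C * (1 / (s - 1) + 1)) + 2 * K ^ 2 := by
  have hmain := sum_log_one_add_le hb0 hb1 hbm hB hs T fun p hp => (hT p hp).1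
  have hpt : ∀ p ∈ T, b p / (p : ℝ) ^ s ≤
      Real.log (1 + b p / (p : ℝ) ^ s) + K ^ 2 * (1 / ((p : ℝ) ^ s) ^ 2) := by
    intro p hp
    obtain ⟨hp1, hp2⟩ := hT p hp
    have hp0 : (0 : ℝ) < p := by exact_mod_cast hp1.pos
    have hps0 : (0 : ℝ) < (p : ℝ) ^ s := Real.rpow_pos_of_pos hp0 s
    set x : ℝ := b p / (p : ℝ) ^ s with hx
    have hx0 : 0 ≤ x := div_nonneg (hb0 p) hps0.le
    have h1 := div_one_add_le_log_one_add hx0
    have h2 : x - x ^ 2 ≤ x / (1 + x) := by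
      rw [le_div_iff₀ (by linarith)]
      nlinarith [mul_nonneg hx0 (sq_nonneg x)]
    have h3 : x ^ 2 ≤ K ^ 2 * (1 / ((p : ℝ) ^ s) ^ 2) := by
      rw [hx, div_pow, mul_one_div]
      refine div_le_div_of_nonneg_right ?_ (by positivity)
      exact pow_le_pow_left₀ (hb0 p) hp2 2
    linarith
  calc ∑ p ∈ T, b p / (p : ℝ) ^ s
      ≤ ∑ p ∈ T, (Real.log (1 + b p / (p : ℝ) ^ s) + K ^ 2 * (1 / ((p : ℝ) ^ s) ^ 2)) :=
        sum_le_sum hpt
    _ = ∑ p ∈ T, Real.log (1 + b p / (p : ℝ) ^ s) + K ^ 2 * ∑ p ∈ T, 1 / ((p : ℝ) ^ s) ^ 2 := by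
        rw [sum_add_distrib, mul_sum]
    _ ≤ Real.log (C * (1 / (s - 1) + 1)) + K ^ 2 * 2 :=
        add_le_add hmain (mul_le_mul_of_nonneg_left
          (sum_one_div_rpow_two_mul_le hs.le T fun p hp => (hT p hp).1.pos) (sq_nonneg K))
    _ = _ := by ring

end Fermat.Agent.DS.N1
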