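import Fermat.Agent.DS.N1.Parseval
import Fermat.Agent.DS.N1.EulerBound
import Fermat.Prelude.Def_FLTPrelim_Modularity

/-!
# S48 (Deligne–Serre), node (N1): the "elementary Rankin" bounds in the shape of the S48 hypotheses

From the hypotheses of S48 (`a_1 = 1`, `a_{pn} + ε(p)[p ∣ n] a_{n/p} = a_p a_n` for `p ∤ N`):

* `coeff_mul_of_coprime` : `a_{mn} = a_m a_n` for `(m, N) = 1`, `(m, n) = 1`;
* `weightOne_sum_log_le` : `∑_{p ∈ T} log (1 + |a_p|² p^{-s}) ≤ log (C (1/(s-1) + 1))`;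
* `weightOne_sum_primes_large_le` : sparseness of `{p : |a_p|² ≥ M}`;
* `weightOne_sum_primes_bounded_le` : `∑_{p ∈ T} |a_p|² p^{-s} ≤ log (C (1/(s-1)+1)) + 2K²` when
  `|a_p|² ≤ K` on `T`.
-/

namespace Fermat.Agent.DS.N1

open Finset

/-- **Hecke multiplicativity** from the prime recursion. -/
theorem coeff_mul_of_coprime {N : ℕ} (e : ℕ → ℂ) (a : ℕ → ℂ) (ha1 : a 1 = 1)
    (hT : ∀ p : ℕ, p.Prime → ¬ p ∣ N → ∀ n : ℕ,
      a (p * n) + e p * (if p ∣ n then a (n / p) else 0) = a p * a n) :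
    ∀ m n : ℕ, m.Coprime N → m.Coprime n → a (m * n) = a m * a n := by
  intro m
  induction m using Nat.strong_induction_on with
  | _ m ih =>
  intro n hmN hmn
  rcases Nat.lt_or_ge m 2 with hm | hm
  · interval_cases m
    · -- `m = 0`
      have hn : n = 1 := by simpa using hmn
      subst hn
      simp [ha1]
    · simp [ha1]
  · have hm1 : m ≠ 1 := by omega
    set p := m.minFac with hp
    have hpp : p.Prime := Nat.minFac_prime hm1
    obtain ⟨m', hm'⟩ : p ∣ m := Nat.minFac_dvd m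
    have hm'pos : 0 < m' := by
      rcases Nat.eq_zero_or_pos m' with h | h
      · subst h; omega
      · exact h
    have hm'lt : m' < m := by
      rw [hm']; exact lt_mul_of_one_lt_left hm'pos hpp.one_lt
    have hpN : ¬ p ∣ N := by
      intro h
      have : p ∣ Nat.gcd m N := Nat.dvd_gcd (Nat.minFac_dvd m) h
      rw [hmN] at this
      exact hpp.one_lt.ne' (Nat.dvd_one.mp this)
    have hpn : ¬ p ∣ n := by
      intro h
      have : p ∣ Nat.gcd m n := Nat.dvd_gcd (Nat.minFac_dvd m) h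
      rw [hmn] at this
      exact hpp.one_lt.ne' (Nat.dvd_one.mp this)
    have hm'N : m'.Coprime N := Nat.Coprime.coprime_dvd_left ⟨p, by rw [hm', mul_comm]⟩ hmN
    have hm'n : m'.Coprime n := Nat.Coprime.coprime_dvd_left ⟨p, by rw [hm', mul_comm]⟩ hmn
    have e1 := hT p hpp hpN (m' * n)
    have e2 := hT p hpp hpN m'
    have ih1 := ih m' hm'lt n hm'N hm'n
    rw [hm', mul_assoc]
    by_cases hpm' : p ∣ m'
    · obtain ⟨m'', hm''⟩ := hpm'
      have hm''lt : m'' < m := by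
        have : m'' ≤ m' := by rw [hm'']; exact Nat.le_mul_of_pos_left _ hpp.pos
        omega
      have hm''N : m''.Coprime N := Nat.Coprime.coprime_dvd_left ⟨p, by rw [hm'', mul_comm]⟩ hm'N
      have hm''n : m''.Coprime n := Nat.Coprime.coprime_dvd_left ⟨p, by rw [hm'', mul_comm]⟩ hm'n
      have ih2 := ih m'' hm''lt n hm''N hm''n
      have d1 : p ∣ m' * n := Dvd.dvd.mul_right ⟨m'', hm''⟩ n
      have d2 : p ∣ m' := ⟨m'', hm''⟩
      have q1 : m' * n / p = m'' * n := by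
        rw [hm'', mul_assoc, Nat.mul_div_cancel_left _ hpp.pos]
      have q2 : m' / p = m'' := by rw [hm'', Nat.mul_div_cancel_left _ hpp.pos]
      rw [if_pos d1, q1, ih2, ih1] at e1
      rw [if_pos d2, q2] at e2
      linear_combination e1 - a n * e2
    · have d1 : ¬ p ∣ m' * n := fun h => (hpp.dvd_mul.mp h).elim hpm' hpn
      rw [if_neg d1, ih1] at e1
      rw [if_neg hpm'] at e2
      linear_combination e1 - a n * e2

/-- the multiplicative nonnegative function `n ↦ |a_n|²·[(n, N) = 1]`. -/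
noncomputable def sqCoprime (N : ℕ) (a : ℕ → ℂ) (n : ℕ) : ℝ :=
  if n.Coprime N then ‖a n‖ ^ 2 else 0

theorem sqCoprime_nonneg (N : ℕ) (a : ℕ → ℂ) (n : ℕ) : 0 ≤ sqCoprime N a n := by
  unfold sqCoprime; split_ifs <;> positivity

theorem sqCoprime_le (N : ℕ) (a : ℕ → ℂ) (n : ℕ) : sqCoprime N a n ≤ ‖a n‖ ^ 2 := by
  unfold sqCoprime
  split_ifs
  · exact le_rfl
  · positivity

theorem sqCoprime_of_prime {N : ℕ} (a : ℕ → ℂ) {p : ℕ} (hp : p.Prime) (hpN : ¬ p ∣ N) :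
    sqCoprime N a p = ‖a p‖ ^ 2 := by
  unfold sqCoprime; rw [if_pos ((Nat.Prime.coprime_iff_not_dvd hp).mpr hpN)]

theorem sqCoprime_one (N : ℕ) (a : ℕ → ℂ) (ha1 : a 1 = 1) : sqCoprime N a 1 = 1 := by
  simp [sqCoprime, ha1]

theorem sqCoprime_mul {N : ℕ} (e : ℕ → ℂ) (a : ℕ → ℂ) (ha1 : a 1 = 1)
    (hT : ∀ p : ℕ, p.Prime → ¬ p ∣ N → ∀ n : ℕ,
      a (p * n) + e p * (if p ∣ n then a (n / p) else 0) = a p * a n)
    (m n : ℕ) (hmn : m.Coprime n) :
    sqCoprime N a (m * n) = sqCoprime N a m * sqCoprime N a n := by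
  unfold sqCoprime
  by_cases hm : m.Coprime N
  · by_cases hn : n.Coprime N
    · rw [if_pos hm, if_pos hn, if_pos (Nat.Coprime.mul_left hm hn),
        coeff_mul_of_coprime e a ha1 hT m n hm hmn, norm_mul, mul_pow]
    · rw [if_neg hn, mul_zero, if_neg]
      exact fun h => hn (Nat.Coprime.coprime_mul_left h)
  · rw [if_neg hm, zero_mul, if_neg]
    exact fun h => hm (Nat.Coprime.coprime_mul_right h)

open CongruenceSubgroup UpperHalfPlane

section WeightOne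

variable (N : ℕ) [NeZero N] (ε : DirichletCharacter ℂ N) (f : CuspForm (Gamma1 N) 1)

/-- The mean bound in the shifted shape used by `EulerBound`. -/
theorem exists_sqCoprime_sum_le :
    ∃ C : ℝ, 1 ≤ C ∧ ∀ X : ℕ,
      ∑ n ∈ range X, sqCoprime N (ModularFormClass.qCoeff f) (n + 1) ≤ C * X := by
  obtain ⟨C, hC0, hC⟩ := sum_sq_coeff_le_weightOne N f
  refine ⟨max C 1, le_max_right _ _, fun X => ?_⟩
  rcases Nat.eq_zero_or_pos X with rfl | hX
  · simp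
  · refine le_trans ?_ (le_trans (hC X hX)
      (mul_le_mul_of_nonneg_right (le_max_left _ _) (Nat.cast_nonneg X)))
    rw [sum_range_succ' _ X]
    have h0 : 0 ≤ ‖(PowerSeries.coeff 0) (qExpansion 1 f)‖ ^ 2 := by positivity
    have : ∑ n ∈ range X, sqCoprime N (ModularFormClass.qCoeff f) (n + 1) ≤
        ∑ n ∈ range X, ‖(PowerSeries.coeff (n + 1)) (qExpansion 1 f)‖ ^ 2 :=
      sum_le_sum fun n _ => sqCoprime_le N _ (n + 1)
    linarith

variable (hf₁ : ModularFormClass.qCoeff f 1 = 1)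
  (hT : ∀ p : ℕ, p.Prime → ¬ p ∣ N → ∀ n : ℕ,
    ModularFormClass.qCoeff f (p * n) +
        ε (p : ZMod N) * (if p ∣ n then ModularFormClass.qCoeff f (n / p) else 0) =
      ModularFormClass.qCoeff f p * ModularFormClass.qCoeff f n)

include hf₁ hT

/-- **(N1) main bound** in the shape of the S48 hypotheses. -/
theorem weightOne_sum_log_le :
    ∃ C : ℝ, 1 ≤ C ∧ ∀ s : ℝ, 1 < s → ∀ T : Finset ℕ, (∀ p ∈ T, p.Prime ∧ ¬ p ∣ N) →
      ∑ p ∈ T, Real.log (1 + ‖ModularFormClass.qCoeff f p‖ ^ 2 / (p : ℝ) ^ s) ≤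
        Real.log (C * (1 / (s - 1) + 1)) := by
  obtain ⟨C, hC1, hC⟩ := exists_sqCoprime_sum_le N f
  refine ⟨C, hC1, fun s hs T hTp => ?_⟩
  have h := sum_log_one_add_le (sqCoprime_nonneg N _) (sqCoprime_one N _ hf₁)
    (sqCoprime_mul (fun p => ε (p : ZMod N)) _ hf₁ hT) hC hs T fun p hp => (hTp p hp).1
  refine le_trans (le_of_eq ?_) h
  exact sum_congr rfl fun p hp => by rw [sqCoprime_of_prime _ (hTp p hp).1 (hTp p hp).2]

/-- **(N1)(i) sparseness**: `(M/2) ∑_{p ∈ T} p^{-s} ≤ log (C (1/(s-1)+1))` for finite sets `T` of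
primes `p ∤ N`, `p ≥ M`, with `|a_p|² ≥ M`. -/
theorem weightOne_sum_primes_large_le :
    ∃ C : ℝ, 1 ≤ C ∧ ∀ s : ℝ, 1 < s → ∀ M : ℝ, 0 < M → ∀ T : Finset ℕ,
      (∀ p ∈ T, p.Prime ∧ ¬ p ∣ N ∧ M ≤ ‖ModularFormClass.qCoeff f p‖ ^ 2 ∧ M ≤ (p : ℝ)) →
      M / 2 * ∑ p ∈ T, 1 / (p : ℝ) ^ s ≤ Real.log (C * (1 / (s - 1) + 1)) := by
  obtain ⟨C, hC1, hC⟩ := exists_sqCoprime_sum_le N f
  refine ⟨C, hC1, fun s hs M hM T hTp => ?_⟩
  refine sum_primes_large_le (sqCoprime_nonneg N _) (sqCoprime_one N _ hf₁)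
    (sqCoprime_mul (fun p => ε (p : ZMod N)) _ hf₁ hT) hC hs hM T fun p hp => ?_
  obtain ⟨h1, h2, h3, h4⟩ := hTp p hp
  exact ⟨h1, by rw [sqCoprime_of_prime _ h1 h2]; exact h3, h4⟩

/-- **(N1)(ii) sharp bound** when `|a_p|² ≤ K` on `T`. -/
theorem weightOne_sum_primes_bounded_le :
    ∃ C : ℝ, 1 ≤ C ∧ ∀ s : ℝ, 1 < s → ∀ K : ℝ, ∀ T : Finset ℕ,
      (∀ p ∈ T, p.Prime ∧ ¬ p ∣ N ∧ ‖ModularFormClass.qCoeff f p‖ ^ 2 ≤ K) →
      ∑ p ∈ T, ‖ModularFormClass.qCoeff f p‖ ^ 2 / (p : ℝ) ^ s ≤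
        Real.log (C * (1 / (s - 1) + 1)) + 2 * K ^ 2 := by
  obtain ⟨C, hC1, hC⟩ := exists_sqCoprime_sum_le N f
  refine ⟨C, hC1, fun s hs K T hTp => ?_⟩
  have h := sum_primes_bounded_le (sqCoprime_nonneg N _) (sqCoprime_one N _ hf₁)
    (sqCoprime_mul (fun p => ε (p : ZMod N)) _ hf₁ hT) hC hs (K := K) T fun p hp => by
      obtain ⟨h1, h2, h3⟩ := hTp p hp
      exact ⟨h1, by rw [sqCoprime_of_prime _ h1 h2]; exact h3⟩
  refine le_trans (le_of_eq ?_) h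
  exact sum_congr rfl fun p hp => by rw [sqCoprime_of_prime _ (hTp p hp).1 (hTp p hp).2.1]

end WeightOne

end Fermat.Agent.DS.N1
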