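/-
S48 (Deligne–Serre) zero-regret prep, node (N1) formal half (helper63): consequences of the Hecke
relations in the EXACT shape of the frozen statement S48,

  `a 1 = 1`,  `∀ p prime, ¬ p ∣ N → ∀ n, a (p * n) + e p * (if p ∣ n then a (n / p) else 0) = a p * a n`

(`a n := qCoeff f n`, `e p := ε (p : ZMod N)`), for a sequence `a : ℕ → R` in a commutative ring.

* `IsHeckeSeq.mul_of_not_dvd`     : `p ∤ N`, `p ∤ n` ⟹ `a (p n) = a p · a n`;
* `IsHeckeSeq.prime_pow_succ_succ`: `a (p^(k+2)) = a p · a (p^(k+1)) - e p · a (p^k)`;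
* `IsHeckeSeq.prime_pow_mul`      : `p ∤ n` ⟹ `a (p^k n) = a (p^k) · a n`;
* `IsHeckeSeq.mul_of_coprime`     : `(m, N) = 1`, `(m, n) = 1` ⟹ `a (m n) = a m · a n` (`n` ARBITRARY);
* `IsHeckeSeq.prod_primes`        : `a (∏ p ∈ S, p) = ∏ p ∈ S, a p` for a finite set `S` of primes `∤ N`;
* analytic form over `ℂ` (no Euler product equality needed):
  `IsHeckeSeq.prod_one_add_le_tsum` :
    `∏ p ∈ S, (1 + ‖a p‖² p^(-s)) ≤ ∑' n, ‖a n‖² n^(-s)`,
  `IsHeckeSeq.sum_log_le` : `∑ p ∈ S, log (1 + ‖a p‖² p^(-s)) ≤ log (∑' n, ‖a n‖² n^(-s))`,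
  `IsHeckeSeq.sum_log_le_of_bound` : `… ≤ log C + log (1/(s-1))` from `D(s) ≤ C/(s-1)`.
-/
import Mathlib

set_option autoImplicit false

namespace Fermat.Agent.DS.N1

open Finset

/-- the Hecke relations of frozen S48, for a sequence `a` and the values `e p = ε(p)` -/
def IsHeckeSeq {R : Type*} [CommRing R] (N : ℕ) (e : ℕ → R) (a : ℕ → R) : Prop :=
  a 1 = 1 ∧ ∀ p : ℕ, p.Prime → ¬ p ∣ N → ∀ n : ℕ,
    a (p * n) + e p * (if p ∣ n then a (n / p) else 0) = a p * a n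

namespace IsHeckeSeq

section Ring

variable {R : Type*} [CommRing R] {N : ℕ} {e a : ℕ → R}

theorem one (h : IsHeckeSeq N e a) : a 1 = 1 := h.1

/-- `p ∤ N`, `p ∤ n` ⟹ `a (p n) = a p · a n` -/
theorem mul_of_not_dvd (h : IsHeckeSeq N e a) {p : ℕ} (hp : p.Prime) (hpN : ¬ p ∣ N) {n : ℕ}
    (hpn : ¬ p ∣ n) : a (p * n) = a p * a n := by
  have := h.2 p hp hpN n
  rwa [if_neg hpn, mul_zero, add_zero] at this

/-- `p ∤ N`, `p ∣ n` ⟹ `a (p n) = a p · a n - e p · a (n / p)` -/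
theorem mul_of_dvd (h : IsHeckeSeq N e a) {p : ℕ} (hp : p.Prime) (hpN : ¬ p ∣ N) {n : ℕ}
    (hpn : p ∣ n) : a (p * n) = a p * a n - e p * a (n / p) := by
  have := h.2 p hp hpN n
  rw [if_pos hpn] at this
  rw [← this]
  ring

/-- the three-term recursion on prime powers -/
theorem prime_pow_succ_succ (h : IsHeckeSeq N e a) {p : ℕ} (hp : p.Prime) (hpN : ¬ p ∣ N)
    (k : ℕ) : a (p ^ (k + 2)) = a p * a (p ^ (k + 1)) - e p * a (p ^ k) := by
  have h1 := h.mul_of_dvd hp hpN (n := p ^ (k + 1)) (dvd_pow_self p (Nat.succ_ne_zero k))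
  have h2 : p ^ (k + 1) / p = p ^ k := by
    rw [pow_succ, Nat.mul_div_cancel _ hp.pos]
  rw [h2] at h1
  rw [← h1, pow_succ p (k + 1), mul_comm]

/-- `p ∤ n` ⟹ `a (p^k n) = a (p^k) · a n` -/
theorem prime_pow_mul (h : IsHeckeSeq N e a) {p : ℕ} (hp : p.Prime) (hpN : ¬ p ∣ N) {n : ℕ}
    (hpn : ¬ p ∣ n) (k : ℕ) : a (p ^ k * n) = a (p ^ k) * a n := by
  induction k using Nat.twoStepInduction with
  | zero => rw [pow_zero, one_mul, h.one, one_mul]
  | one => rw [pow_one]; exact h.mul_of_not_dvd hp hpN hpn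
  | more k ih0 ih1 =>
    have hd : p ∣ p ^ (k + 1) * n := Dvd.dvd.mul_right (dvd_pow_self p (Nat.succ_ne_zero k)) n
    have h1 := h.mul_of_dvd hp hpN hd
    have h2 : p ^ (k + 1) * n / p = p ^ k * n := by
      rw [pow_succ, mul_assoc, mul_comm p n, ← mul_assoc, Nat.mul_div_cancel _ hp.pos]
    rw [h2, ih0, ih1] at h1
    have h3 : p ^ (k + 2) * n = p * (p ^ (k + 1) * n) := by ring
    rw [h3, h1, h.prime_pow_succ_succ hp hpN k]
    ring

/-- **multiplicativity**: `(m, N) = 1`, `(m, n) = 1` ⟹ `a (m n) = a m · a n`; `n` is arbitrary -/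
theorem mul_of_coprime (h : IsHeckeSeq N e a) (m : ℕ) :
    Nat.Coprime m N → ∀ n : ℕ, Nat.Coprime m n → a (m * n) = a m * a n := by
  induction m using Nat.recOnPosPrimePosCoprime with
  | prime_pow p k hp hk =>
    intro hmN n hmn
    have hpN : ¬ p ∣ N :=
      (Nat.Prime.coprime_iff_not_dvd hp).mp ((Nat.coprime_pow_left_iff hk p N).mp hmN)
    have hpn : ¬ p ∣ n :=
      (Nat.Prime.coprime_iff_not_dvd hp).mp ((Nat.coprime_pow_left_iff hk p n).mp hmn)
    exact h.prime_pow_mul hp hpN hpn k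
  | zero =>
    intro hmN n hmn
    have : n = 1 := by simpa using hmn
    subst this
    rw [mul_one, h.one, mul_one]
  | one =>
    intro _ n _
    rw [one_mul, h.one, one_mul]
  | coprime x y hx hy hxy ihx ihy =>
    intro hmN n hmn
    have hxN : Nat.Coprime x N := Nat.Coprime.coprime_mul_right hmN
    have hyN : Nat.Coprime y N := Nat.Coprime.coprime_mul_left hmN
    have hxn : Nat.Coprime x n := Nat.Coprime.coprime_mul_right hmn
    have hyn : Nat.Coprime y n := Nat.Coprime.coprime_mul_left hmn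
    rw [mul_assoc, ihx hxN (y * n) (Nat.Coprime.mul_right hxy hxn), ihy hyN n hyn,
      ihx hxN y hxy, mul_assoc]

/-- `a (∏ p ∈ S, p) = ∏ p ∈ S, a p` for a finite set `S` of primes not dividing `N` -/
theorem prod_primes (h : IsHeckeSeq N e a) (S : Finset ℕ) (hS : ∀ p ∈ S, p.Prime ∧ ¬ p ∣ N) :
    a (∏ p ∈ S, p) = ∏ p ∈ S, a p := by
  classical
  induction S using Finset.induction_on with
  | empty => simpa using h.one
  | insert q S hq ih =>
    have hq' := hS q (mem_insert_self q S)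
    have hS' : ∀ p ∈ S, p.Prime ∧ ¬ p ∣ N := fun p hp => hS p (mem_insert_of_mem hp)
    rw [prod_insert hq, prod_insert hq, ← ih hS']
    apply h.mul_of_not_dvd hq'.1 hq'.2
    intro hd
    obtain ⟨r, hr, hqr⟩ := (Prime.dvd_finsetProd_iff hq'.1.prime _).mp hd
    have : q = r := (Nat.prime_dvd_prime_iff_eq hq'.1 (hS' r hr).1).mp hqr
    exact hq (this ▸ hr)

end Ring

section Complex

variable {N : ℕ} {e a : ℕ → ℂ}

/-- the general term of `D(s) = ∑ ‖a n‖² n^(-s)` -/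
noncomputable def term (a : ℕ → ℂ) (s : ℝ) (n : ℕ) : ℝ := ‖a n‖ ^ 2 * (n : ℝ) ^ (-s)

theorem term_nonneg (a : ℕ → ℂ) (s : ℝ) (n : ℕ) : 0 ≤ term a s n :=
  mul_nonneg (sq_nonneg _) (Real.rpow_nonneg (Nat.cast_nonneg n) _)

/-- `term` is multiplicative on products of distinct primes `∤ N` -/
theorem term_prod_primes (h : IsHeckeSeq N e a) (s : ℝ) (T : Finset ℕ)
    (hT : ∀ p ∈ T, p.Prime ∧ ¬ p ∣ N) :
    term a s (∏ p ∈ T, p) = ∏ p ∈ T, term a s p := by
  unfold term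
  rw [h.prod_primes T hT, norm_prod, ← prod_pow, prod_mul_distrib, Nat.cast_prod,
    Real.finsetProd_rpow _ _ (fun i _ => Nat.cast_nonneg i)]

/-- **finite Euler inequality**: `∏_{p ∈ S} (1 + ‖a p‖² p^(-s)) ≤ ∑' n, ‖a n‖² n^(-s)` -/
theorem prod_one_add_le_tsum (h : IsHeckeSeq N e a) (s : ℝ) (hsum : Summable (term a s))
    (S : Finset ℕ) (hS : ∀ p ∈ S, p.Prime ∧ ¬ p ∣ N) :
    ∏ p ∈ S, (1 + term a s p) ≤ ∑' n, term a s n := by
  classical
  rw [prod_one_add]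
  have hinj : Set.InjOn (fun T : Finset ℕ => ∏ p ∈ T, p) (S.powerset : Set (Finset ℕ)) := by
    intro T hT T' hT' hTT'
    have h1 : ∀ p ∈ T, p.Prime := fun p hp => (hS p (mem_powerset.mp hT hp)).1
    have h2 : ∀ p ∈ T', p.Prime := fun p hp => (hS p (mem_powerset.mp hT' hp)).1
    have := congrArg Nat.primeFactors hTT'
    simpa only [Nat.primeFactors_prod h1, Nat.primeFactors_prod h2] using this
  calc ∑ T ∈ S.powerset, ∏ p ∈ T, term a s p
      = ∑ T ∈ S.powerset, term a s (∏ p ∈ T, p) := by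
        refine sum_congr rfl fun T hT => ?_
        rw [h.term_prod_primes s T fun p hp => hS p (mem_powerset.mp hT hp)]
    _ = ∑ n ∈ S.powerset.image (fun T : Finset ℕ => ∏ p ∈ T, p), term a s n :=
        (sum_image hinj).symm
    _ ≤ ∑' n, term a s n := hsum.sum_le_tsum _ fun n _ => term_nonneg a s n

/-- **`∑_{p ∈ S} log (1 + ‖a p‖² p^(-s)) ≤ log D(s)`** -/
theorem sum_log_le (h : IsHeckeSeq N e a) (s : ℝ) (hsum : Summable (term a s))
    (S : Finset ℕ) (hS : ∀ p ∈ S, p.Prime ∧ ¬ p ∣ N) :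
    ∑ p ∈ S, Real.log (1 + term a s p) ≤ Real.log (∑' n, term a s n) := by
  have hpos : ∀ p ∈ S, 0 < 1 + term a s p := fun p _ =>
    add_pos_of_pos_of_nonneg one_pos (term_nonneg a s p)
  rw [← Real.log_prod fun p hp => (hpos p hp).ne']
  exact Real.log_le_log (prod_pos hpos) (h.prod_one_add_le_tsum s hsum S hS)

/-- with the Rankin-type bound `D(s) ≤ C/(s-1)`:
`∑_{p ∈ S} log (1 + ‖a p‖² p^(-s)) ≤ log C + log (1/(s-1))` -/
theorem sum_log_le_of_bound (h : IsHeckeSeq N e a) {s C : ℝ} (hs : 1 < s) (hC : 0 < C)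
    (hsum : Summable (term a s)) (hD : ∑' n, term a s n ≤ C / (s - 1))
    (S : Finset ℕ) (hS : ∀ p ∈ S, p.Prime ∧ ¬ p ∣ N) :
    ∑ p ∈ S, Real.log (1 + term a s p) ≤ Real.log C + Real.log (1 / (s - 1)) := by
  have hs1 : 0 < s - 1 := sub_pos.mpr hs
  have h1 := h.sum_log_le s hsum S hS
  have hpos : 0 < ∏ p ∈ S, (1 + term a s p) := prod_pos fun p _ =>
    add_pos_of_pos_of_nonneg one_pos (term_nonneg a s p)
  have hDpos : 0 < ∑' n, term a s n := lt_of_lt_of_le hpos (h.prod_one_add_le_tsum s hsum S hS)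
  calc ∑ p ∈ S, Real.log (1 + term a s p) ≤ Real.log (∑' n, term a s n) := h1
    _ ≤ Real.log (C / (s - 1)) := Real.log_le_log hDpos hD
    _ = Real.log C + Real.log (1 / (s - 1)) := by
        rw [div_eq_mul_one_div, Real.log_mul hC.ne' (one_div_pos.mpr hs1).ne']

end Complex

end IsHeckeSeq

end Fermat.Agent.DS.N1
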