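/-
S48 zero-regret prep (helper63): the hypotheses `hf₁`, `hT` of the frozen statement S48 are
`IsHeckeSeq N (ε ∘ cast) (qCoeff f)` VERBATIM (plug for `DS/N1/HeckeMult.lean`).
-/
import Fermat.Agent.DS.N1.HeckeMult
import Fermat.Prelude.Def_FLTPrelim_Modularity

set_option autoImplicit false

namespace Fermat.Agent.DS.N1

open CongruenceSubgroup in
/-- the hypotheses `hf₁`, `hT` of frozen S48 are `IsHeckeSeq N (ε ∘ cast) (qCoeff f)` VERBATIM -/
theorem isHeckeSeq_of_qCoeff (N : ℕ) [NeZero N] (ε : DirichletCharacter ℂ N)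
    (f : CuspForm (Gamma1 N) 1)
    (hf₁ : ModularFormClass.qCoeff f 1 = 1)
    (hT : ∀ p : ℕ, p.Prime → ¬ p ∣ N → ∀ n : ℕ,
        ModularFormClass.qCoeff f (p * n) +
            ε (p : ZMod N) * (if p ∣ n then ModularFormClass.qCoeff f (n / p) else 0) =
          ModularFormClass.qCoeff f p * ModularFormClass.qCoeff f n) :
    IsHeckeSeq N (fun p : ℕ => ε (p : ZMod N)) (fun n => ModularFormClass.qCoeff f n) :=
  ⟨hf₁, hT⟩

/-- multiplicativity of the `q`-coefficients of the form of frozen S48 -/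
theorem qCoeff_mul_of_coprime (N : ℕ) [NeZero N] (ε : DirichletCharacter ℂ N)
    (f : CuspForm (CongruenceSubgroup.Gamma1 N) 1)
    (hf₁ : ModularFormClass.qCoeff f 1 = 1)
    (hT : ∀ p : ℕ, p.Prime → ¬ p ∣ N → ∀ n : ℕ,
        ModularFormClass.qCoeff f (p * n) +
            ε (p : ZMod N) * (if p ∣ n then ModularFormClass.qCoeff f (n / p) else 0) =
          ModularFormClass.qCoeff f p * ModularFormClass.qCoeff f n)
    {m n : ℕ} (hmN : Nat.Coprime m N) (hmn : Nat.Coprime m n) :
    ModularFormClass.qCoeff f (m * n) = ModularFormClass.qCoeff f m * ModularFormClass.qCoeff f n :=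
  (isHeckeSeq_of_qCoeff N ε f hf₁ hT).mul_of_coprime m hmN n hmn

end Fermat.Agent.DS.N1
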