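import Mathlib

/-!
# S48 (Deligne–Serre), node (N1), analytic half: the mean-square bound for cusp form coefficients

For a cusp form `f` of weight `k` on an arithmetic group with period `1`, with `q`-expansion
`∑ a_n qⁿ`:

* `fourierCoeffOn_lineFun` : the `n`-th Fourier coefficient of `u ↦ f (u + i t)` on `[0,1]` is
  `a_n · e^{-2πnt}`;
* `sum_sq_coeff_mul_exp_le_integral` : Bessel: `∑_{n<M} |a_n|² e^{-4πnt} ≤ ∫₀¹ |f(u+it)|² du`;
* `sum_sq_coeff_mul_exp_le` : `… ≤ B / t^k` (Hecke's bound `|f| ≤ C · im^{-k/2}`);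
* `sum_sq_coeff_le` : `∑_{n ≤ X} |a_n|² ≤ C · X^k`;
* `sum_sq_coeff_le_weightOne` : the case `CuspForm (Gamma1 N) 1`.

Mathlib only.
-/

namespace Fermat.Agent.DS.N1

open UpperHalfPlane MeasureTheory Real

local notation "𝕢" => Function.Periodic.qParam

variable {k : ℤ} {Γ : Subgroup (GL (Fin 2) ℝ)}
  {F : Type*} [FunLike F ℍ ℂ]

/-- the horizontal line function `u ↦ f (u + i t)` -/
noncomputable def lineFun (f : ℍ → ℂ) (t : ℝ) (ht : 0 < t) (u : ℝ) : ℂ :=
  f ⟨(u : ℂ) + t * Complex.I, by simpa using ht⟩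

theorem continuous_lineFun [ModularFormClass F Γ k] (f : F) (t : ℝ) (ht : 0 < t) :
    Continuous (lineFun f t ht) := by
  have hf : Continuous (f : ℍ → ℂ) := (ModularFormClass.holo f).continuous
  unfold lineFun
  refine hf.comp ?_
  refine Continuous.upperHalfPlaneMk ?_ _
  fun_prop

/-- The Fourier coefficients of the line function are the `q`-expansion coefficients (period `1`)
damped by `exp (-2 π n t)`. -/
theorem fourierCoeffOn_lineFun [ModularFormClass F Γ k] (f : F)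
    (hΓ : (1 : ℝ) ∈ Γ.strictPeriods) (t : ℝ) (ht : 0 < t) (n : ℕ) :
    fourierCoeffOn (zero_lt_one' ℝ) (lineFun f t ht) n =
      (qExpansion 1 f).coeff n * Real.exp (-2 * π * n * t) := by
  rw [ModularFormClass.qExpansion_coeff_eq_intervalIntegral f one_pos hΓ n ht,
    fourierCoeffOn_eq_integral]
  simp only [sub_zero, one_div, inv_one, one_smul, Complex.ofReal_one, one_mul]
  rw [← intervalIntegral.integral_mul_const]
  refine intervalIntegral.integral_congr fun u _ => ?_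
  simp only [lineFun, smul_eq_mul]
  have h1 : (fourier (-(n : ℤ)) ((u : ℝ) : AddCircle (1 - 0 : ℝ))) =
      Complex.exp (-2 * π * Complex.I * n * u) := by
    rw [fourier_coe_apply]
    congr 1
    push_cast
    ring
  have h2 : (𝕢 1 ((u : ℂ) + t * Complex.I) ^ n)⁻¹ =
      Complex.exp (-2 * π * Complex.I * n * u) * Real.exp (2 * π * n * t) := by
    rw [Function.Periodic.qParam, ← Complex.exp_nat_mul, ← Complex.exp_neg, Complex.ofReal_exp,
      ← Complex.exp_add]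
    congr 1
    push_cast
    ring_nf
    rw [Complex.I_sq]
    ring
  rw [h1, h2]
  have h3 : (Real.exp (2 * π * n * t) : ℂ) * (Real.exp (-2 * π * n * t) : ℂ) = 1 := by
    rw [← Complex.ofReal_mul, ← Real.exp_add]
    simp
  calc _ = Complex.exp (-2 * π * Complex.I * n * u) *
        f ⟨(u : ℂ) + t * Complex.I, by simpa using ht⟩ *
        ((Real.exp (2 * π * n * t) : ℂ) * (Real.exp (-2 * π * n * t) : ℂ)) := by
        rw [h3, mul_one]
    _ = _ := by ring


/-- **Bessel/Parseval on horizontal lines.** -/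
theorem sum_sq_coeff_mul_exp_le_integral [ModularFormClass F Γ k] (f : F)
    (hΓ : (1 : ℝ) ∈ Γ.strictPeriods) (t : ℝ) (ht : 0 < t) (M : ℕ) :
    ∑ n ∈ Finset.range M, ‖(qExpansion 1 f).coeff n‖ ^ 2 * Real.exp (-4 * π * n * t) ≤
      ∫ u in (0 : ℝ)..1, ‖lineFun f t ht u‖ ^ 2 := by
  have hcont := continuous_lineFun f t ht
  -- boundedness on `[0,1]`
  obtain ⟨C, hC⟩ : ∃ C, ∀ u ∈ Set.Icc (0 : ℝ) 1, ‖lineFun f t ht u‖ ≤ C := by
    obtain ⟨C, hC⟩ := (isCompact_Icc (a := (0 : ℝ)) (b := 1)).exists_bound_of_continuousOn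
      hcont.continuousOn
    exact ⟨C, hC⟩
  have hL2 : MemLp (lineFun f t ht) 2 (volume.restrict (Set.Ioc (0 : ℝ) 1)) := by
    refine MemLp.of_bound hcont.aestronglyMeasurable C ?_
    rw [ae_restrict_iff' measurableSet_Ioc]
    exact Filter.Eventually.of_forall fun u hu => hC u (Set.Ioc_subset_Icc_self hu)
  have hpars := hasSum_sq_fourierCoeffOn (zero_lt_one' ℝ) hL2
  simp only [sub_zero, inv_one, one_smul] at hpars
  have hle := sum_le_hasSum ((Finset.range M).map (Nat.castEmbedding : ℕ ↪ ℤ))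
    (fun i _ => by positivity) hpars
  refine le_trans (le_of_eq ?_) hle
  rw [Finset.sum_map]
  refine Finset.sum_congr rfl fun n _ => ?_
  simp only [Nat.castEmbedding_apply]
  rw [fourierCoeffOn_lineFun f hΓ t ht n, norm_mul, mul_pow, Complex.norm_real,
    Real.norm_of_nonneg (Real.exp_pos _).le, ← Real.exp_nat_mul]
  congr 2
  push_cast
  ring

/-- For a cusp form of weight `k` with period `1`: `∑_{n < M} |a_n|² e^{-4πnt} ≤ B / t^k`. -/
theorem sum_sq_coeff_mul_exp_le [Γ.IsArithmetic] [CuspFormClass F Γ k] (f : F)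
    (hΓ : (1 : ℝ) ∈ Γ.strictPeriods) :
    ∃ B : ℝ, 0 ≤ B ∧ ∀ (t : ℝ), 0 < t → ∀ M : ℕ,
      ∑ n ∈ Finset.range M, ‖(qExpansion 1 f).coeff n‖ ^ 2 * Real.exp (-4 * π * n * t) ≤
        B / t ^ (k : ℝ) := by
  obtain ⟨C, hC⟩ := CuspFormClass.exists_bound (Γ := Γ) (k := k) f
  refine ⟨C ^ 2, sq_nonneg _, fun t ht M => ?_⟩
  refine le_trans (sum_sq_coeff_mul_exp_le_integral f hΓ t ht M) ?_
  have hpt : ∀ u : ℝ, ‖lineFun f t ht u‖ ^ 2 ≤ C ^ 2 / t ^ (k : ℝ) := by
    intro u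
    have h1 := hC ⟨(u : ℂ) + t * Complex.I, by simpa using ht⟩
    have him : (⟨(u : ℂ) + t * Complex.I, by simpa using ht⟩ : ℍ).im = t := by
      show ((u : ℂ) + t * Complex.I).im = t
      simp
    rw [him] at h1
    have h2 : ‖lineFun f t ht u‖ ^ 2 ≤ (C / t ^ ((k : ℝ) / 2)) ^ 2 :=
      pow_le_pow_left₀ (norm_nonneg _) h1 2
    refine le_trans h2 (le_of_eq ?_)
    rw [div_pow, ← Real.rpow_natCast (t ^ ((k : ℝ) / 2)) 2, ← Real.rpow_mul ht.le]
    congr 2
    push_cast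
    ring
  calc ∫ u in (0 : ℝ)..1, ‖lineFun f t ht u‖ ^ 2
      ≤ ∫ _u in (0 : ℝ)..1, C ^ 2 / t ^ (k : ℝ) := by
        refine intervalIntegral.integral_mono_on zero_le_one ?_ ?_ fun u _ => hpt u
        · exact ((continuous_lineFun f t ht).norm.pow 2).intervalIntegrable _ _
        · exact continuous_const.intervalIntegrable _ _
    _ = C ^ 2 / t ^ (k : ℝ) := by simp

/-- **Mean-square bound** for the coefficients of a cusp form of weight `k`:
`∑_{n ≤ X} |a_n|² ≤ C · X^k`. -/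
theorem sum_sq_coeff_le [Γ.IsArithmetic] [CuspFormClass F Γ k] (f : F)
    (hΓ : (1 : ℝ) ∈ Γ.strictPeriods) :
    ∃ C : ℝ, 0 ≤ C ∧ ∀ X : ℕ, 1 ≤ X →
      ∑ n ∈ Finset.range (X + 1), ‖(qExpansion 1 f).coeff n‖ ^ 2 ≤ C * (X : ℝ) ^ (k : ℝ) := by
  obtain ⟨B, hB0, hB⟩ := sum_sq_coeff_mul_exp_le (Γ := Γ) (k := k) f hΓ
  refine ⟨Real.exp (4 * π) * B, by positivity, fun X hX => ?_⟩
  have hXpos : (0 : ℝ) < X := by exact_mod_cast hX
  have h := hB (1 / X) (by positivity) (X + 1)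
  have hlow : ∑ n ∈ Finset.range (X + 1), ‖(qExpansion 1 f).coeff n‖ ^ 2 * Real.exp (-(4 * π)) ≤
      ∑ n ∈ Finset.range (X + 1),
        ‖(qExpansion 1 f).coeff n‖ ^ 2 * Real.exp (-4 * π * n * (1 / X)) := by
    refine Finset.sum_le_sum fun n hn => ?_
    refine mul_le_mul_of_nonneg_left ?_ (sq_nonneg _)
    rw [Real.exp_le_exp]
    have hn' : (n : ℝ) ≤ X := by
      exact_mod_cast Nat.lt_succ_iff.mp (Finset.mem_range.mp hn)
    have : (n : ℝ) * (1 / X) ≤ 1 := by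
      rw [mul_one_div, div_le_one hXpos]; exact hn'
    nlinarith [Real.pi_pos]
  rw [← Finset.sum_mul] at hlow
  have h2 := le_trans hlow h
  have h3 : B / (1 / (X : ℝ)) ^ (k : ℝ) = B * (X : ℝ) ^ (k : ℝ) := by
    rw [one_div, Real.inv_rpow hXpos.le, div_inv_eq_mul]
  rw [h3] at h2
  have hexp : Real.exp (-(4 * π)) * Real.exp (4 * π) = 1 := by
    rw [← Real.exp_add]; simp
  calc ∑ n ∈ Finset.range (X + 1), ‖(qExpansion 1 f).coeff n‖ ^ 2
      = (∑ n ∈ Finset.range (X + 1), ‖(qExpansion 1 f).coeff n‖ ^ 2) * Real.exp (-(4 * π)) *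
          Real.exp (4 * π) := by rw [mul_assoc, hexp, mul_one]
    _ ≤ B * (X : ℝ) ^ (k : ℝ) * Real.exp (4 * π) :=
        mul_le_mul_of_nonneg_right h2 (Real.exp_pos _).le
    _ = Real.exp (4 * π) * B * (X : ℝ) ^ (k : ℝ) := by ring

open CongruenceSubgroup in
/-- The weight one, level `Γ₁(N)` case in the shape used by Deligne–Serre:
`∑_{n ≤ X} |a_n|² ≤ C · X`. -/
theorem sum_sq_coeff_le_weightOne (N : ℕ) [NeZero N] (f : CuspForm (Gamma1 N) 1) :
    ∃ C : ℝ, 0 ≤ C ∧ ∀ X : ℕ, 1 ≤ X →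
      ∑ n ∈ Finset.range (X + 1), ‖(qExpansion 1 f).coeff n‖ ^ 2 ≤ C * (X : ℝ) := by
  obtain ⟨C, hC0, hC⟩ := sum_sq_coeff_le (k := 1) f (by simp)
  refine ⟨C, hC0, fun X hX => ?_⟩
  have := hC X hX
  simpa using this

end Fermat.Agent.DS.N1
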